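import Mathlib.Algebra.Order.Floor.Ring
import Mathlib.Topology.Order.MonotoneConvergence
import Mathlib.Analysis.Real.Pi.Bounds
import Mathlib.Tactic.Linarith

/-!
# Avoiding the integers along sparse frequencies

If at most two frequencies lie in each dyadic range above one, some real `β` has `|c β - n| ≥ 2⁻¹²`
for every frequency `c` and integer `n`: five ranges at a time forbid at most twenty of the
thirty-two pieces of an interval.
-/

set_option autoImplicit false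

noncomputable section

namespace FA.DavenportEuclidean

open Finset

/-- At most two numbers of the set lie in every dyadic range from one on. -/
def Sparse (C : Set ℝ) : Prop :=
  ∀ j : ℕ, ∃ x y : ℝ, ∀ c ∈ C, (2 : ℝ) ^ j ≤ c → c < 2 ^ (j + 1) → c = x ∨ c = y

/-- The length of the interval at step `t`. -/
def stepLen (t : ℕ) : ℝ := 1 / (64 * 32 ^ t)

theorem stepLen_succ (t : ℕ) : stepLen (t + 1) * 32 = stepLen t := by
  rw [stepLen, stepLen, pow_succ]
  field_simp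

theorem stepLen_pos (t : ℕ) : 0 < stepLen t := by rw [stepLen]; positivity

theorem bad_pieces_close {t : ℕ} {c l : ℝ} (h1 : (32 : ℝ) ^ t ≤ c) (h2 : c ≤ 32 * 32 ^ t)
    {i i' : ℕ} (hi : i < 32) (hi' : i' < 32) {β β' : ℝ} {n n' : ℤ}
    (hβ : l + i * stepLen (t + 1) ≤ β ∧ β ≤ l + (i + 1) * stepLen (t + 1))
    (hβ' : l + i' * stepLen (t + 1) ≤ β' ∧ β' ≤ l + (i' + 1) * stepLen (t + 1))
    (hn : |c * β - n| < 1 / 4096) (hn' : |c * β' - n'| < 1 / 4096) : i' ≤ i + 1 := by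
  obtain ⟨L, hL⟩ : ∃ L, L = stepLen (t + 1) := ⟨_, rfl⟩
  obtain ⟨T, hT⟩ : ∃ T, T = (32 : ℝ) ^ t := ⟨_, rfl⟩
  rw [← hL] at hβ hβ'
  rw [← hT] at h1 h2
  have hT0 : 0 < T := hT ▸ by positivity
  have hLT : L * T = 1 / 2048 := by
    rw [hL, hT, stepLen, pow_succ]
    field_simp
    ring
  have hL0 : 0 < L := hL ▸ stepLen_pos _
  have hc0 : 0 < c := lt_of_lt_of_le hT0 h1
  have hcL : c * (32 * L) ≤ 1 / 2 := by
    have := mul_le_mul_of_nonneg_right h2 (show (0 : ℝ) ≤ 32 * L by positivity)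
    linarith
  have hi1 : (i : ℝ) + 1 ≤ 32 := by exact_mod_cast hi
  have hi1' : (i' : ℝ) + 1 ≤ 32 := by exact_mod_cast hi'
  have hd : |β' - β| ≤ 32 * L := by
    rw [abs_le]
    constructor <;> nlinarith [Nat.cast_nonneg (α := ℝ) i, Nat.cast_nonneg (α := ℝ) i']
  have hcd : |c * β' - c * β| ≤ 1 / 2 := by
    rw [← mul_sub, abs_mul, abs_of_pos hc0]
    exact (mul_le_mul_of_nonneg_left hd hc0.le).trans hcL
  rw [abs_lt] at hn hn'
  rw [abs_le] at hcd
  have hnn : n' = n := by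
    have h3 : (n' : ℝ) < n + 1 := by linarith
    have h4 : (n : ℝ) < n' + 1 := by linarith
    have h3' : n' < n + 1 := by exact_mod_cast h3
    have h4' : n < n' + 1 := by exact_mod_cast h4
    omega
  subst hnn
  by_contra hlt
  have h5 : (i : ℝ) + 2 ≤ i' := by exact_mod_cast (show i + 2 ≤ i' by omega)
  have h6 : L ≤ β' - β := by nlinarith
  have h7 := mul_le_mul h1 h6 hL0.le hc0.le
  linarith

theorem card_bad_le {t : ℕ} {c : ℝ} (l : ℝ) (h1 : (32 : ℝ) ^ t ≤ c) (h2 : c ≤ 32 * 32 ^ t)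
    (S : Finset ℕ) (hS : ∀ i ∈ S, i < 32 ∧ ∃ (β : ℝ) (n : ℤ),
      (l + i * stepLen (t + 1) ≤ β ∧ β ≤ l + (i + 1) * stepLen (t + 1)) ∧
        |c * β - n| < 1 / 4096) : S.card ≤ 2 := by
  rcases S.eq_empty_or_nonempty with rfl | hne
  · simp
  obtain ⟨hm, β, n, hβ, hn⟩ := hS _ (S.min'_mem hne)
  refine (card_le_card (t := {S.min' hne, S.min' hne + 1}) fun i hi => ?_).trans card_le_two
  obtain ⟨hi32, β', n', hβ', hn'⟩ := hS i hi
  have h3 := bad_pieces_close h1 h2 hm hi32 hβ hβ' hn hn'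
  have h4 := S.min'_le i hi
  rw [mem_insert, mem_singleton]
  omega

theorem exists_next {C : Set ℝ} (hC : Sparse C) (t : ℕ) (l : ℝ) : ∃ l' : ℝ, l ≤ l' ∧
    l' + stepLen (t + 1) ≤ l + stepLen t ∧
      ∀ c ∈ C, (32 : ℝ) ^ t ≤ c → c < 32 ^ (t + 1) → ∀ β : ℝ, l' ≤ β →
        β ≤ l' + stepLen (t + 1) → ∀ n : ℤ, 1 / 4096 ≤ |c * β - n| := by
  classical
  choose x y hxy using hC
  obtain ⟨F, hF⟩ : ∃ F : Finset ℝ, F =
      ((Ico (5 * t) (5 * t + 5)).image x ∪ (Ico (5 * t) (5 * t + 5)).image y).filter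
        fun c => (32 : ℝ) ^ t ≤ c ∧ c < 32 ^ (t + 1) := ⟨_, rfl⟩
  have hFc : F.card ≤ 10 := by
    rw [hF]
    refine (card_filter_le _ _).trans ((card_union_le _ _).trans ?_)
    exact (add_le_add card_image_le card_image_le).trans (by simp)
  have hmem : ∀ c ∈ C, (32 : ℝ) ^ t ≤ c → c < 32 ^ (t + 1) → c ∈ F := by
    intro c hc h1 h2
    obtain ⟨j, hj1, hj2⟩ := exists_nat_pow_near ((one_le_pow₀ (by norm_num)).trans h1) one_lt_two
    have hj : j ∈ Ico (5 * t) (5 * t + 5) := by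
      rw [mem_Ico]
      constructor
      · by_contra hlt
        have := pow_le_pow_right₀ (one_le_two (α := ℝ)) (show j + 1 ≤ 5 * t by omega)
        rw [pow_mul, show (2 : ℝ) ^ 5 = 32 by norm_num] at this
        linarith
      · by_contra hlt
        have := pow_le_pow_right₀ (one_le_two (α := ℝ)) (show 5 * (t + 1) ≤ j by omega)
        rw [pow_mul, show (2 : ℝ) ^ 5 = 32 by norm_num] at this
        linarith
    rw [hF, mem_filter, mem_union]
    refine ⟨?_, h1, h2⟩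
    rcases hxy j c hc hj1 hj2 with h | h
    · exact Or.inl (mem_image.2 ⟨j, hj, h.symm⟩)
    · exact Or.inr (mem_image.2 ⟨j, hj, h.symm⟩)
  let bad : ℝ → Finset ℕ := fun c => (range 32).filter fun i : ℕ => ∃ (β : ℝ) (n : ℤ),
    (l + i * stepLen (t + 1) ≤ β ∧ β ≤ l + (i + 1) * stepLen (t + 1)) ∧ |c * β - n| < 1 / 4096
  have hbad : (F.biUnion bad).card ≤ 20 := by
    refine (card_biUnion_le_card_mul _ _ 2 fun c hc => ?_).trans (by omega)
    rw [hF, mem_filter] at hc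
    exact card_bad_le l hc.2.1 (hc.2.2.le.trans_eq (pow_succ' _ _)) _ fun i hi =>
      ⟨mem_range.1 (mem_filter.1 hi).1, (mem_filter.1 hi).2⟩
  obtain ⟨i, hi, hni⟩ := exists_mem_notMem_of_card_lt_card
    (s := F.biUnion bad) (t := range 32) (by rw [card_range]; omega)
  have hi1 : (i : ℝ) + 1 ≤ 32 := by exact_mod_cast mem_range.1 hi
  have hL := stepLen_pos (t + 1)
  refine ⟨l + i * stepLen (t + 1), le_add_of_nonneg_right (by positivity), ?_, ?_⟩
  · rw [← stepLen_succ t]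
    have := mul_le_mul_of_nonneg_right hi1 hL.le
    linarith
  · intro c hc h1 h2 β hβ1 hβ2 n
    by_contra! hlt
    refine hni (mem_biUnion.2 ⟨c, hmem c hc h1 h2, mem_filter.2 ⟨hi, β, n, ⟨hβ1, ?_⟩, hlt⟩⟩)
    linarith

/-- The nested intervals. -/
def nest {C : Set ℝ} (hC : Sparse C) : ℕ → ℝ
  | 0 => 0
  | t + 1 => (exists_next hC t (nest hC t)).choose

theorem exists_avoid {C : Set ℝ} (hC : Sparse C) (h1 : ∀ c ∈ C, (1 : ℝ) ≤ c) :
    ∃ β : ℝ, ∀ c ∈ C, ∀ n : ℤ, 1 / 4096 ≤ |c * β - n| := by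
  have hl := fun t => (exists_next hC t (nest hC t)).choose_spec
  have hmono : Monotone (nest hC) := monotone_nat_of_le_succ fun t => (hl t).1
  have hanti : Antitone fun t => nest hC t + stepLen t :=
    antitone_nat_of_succ_le fun t => (hl t).2.1
  have hbd : ∀ s t, nest hC s ≤ nest hC t + stepLen t := fun s t =>
    (hmono (le_max_left s t)).trans ((le_add_of_nonneg_right (stepLen_pos _).le).trans
      (hanti (le_max_right s t)))
  refine ⟨⨆ s, nest hC s, fun c hc n => ?_⟩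
  obtain ⟨t, ht1, ht2⟩ := exists_nat_pow_near (h1 c hc) (show (1 : ℝ) < 32 by norm_num)
  exact (hl t).2.2 c hc ht1 ht2 _
    (le_ciSup ⟨nest hC 0 + stepLen 0, fun _ ⟨s, hs⟩ => hs ▸ hbd s 0⟩ (t + 1))
    (ciSup_le fun s => hbd s (t + 1)) n

end FA.DavenportEuclidean
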