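import Fermat.Agent.DavenportEuclidean.Coords
import Fermat.Agent.DavenportEuclidean.Avoid
import Mathlib.Data.Int.Interval

/-!
# Best vectors

Integral points at which the second factor is least for the size of the first: for every large `X`
one has `|fac₁| ≤ X`, `|fac₂| ≤ 2 √D / X`, and at most two have `|fac₁|` in a dyadic range.
-/

set_option autoImplicit false

noncomputable section

namespace FA.DavenportEuclidean

namespace IndefForm

open Finset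

variable (F : IndefForm)

/-- No integral point has both a smaller first and a smaller second factor. -/
def IsBest (v : ℤ × ℤ) : Prop :=
  v ≠ 0 ∧ ∀ w : ℤ × ℤ, w ≠ 0 → |F.fac₁ (ofInt w)| ≤ |F.fac₁ (ofInt v)| →
    |F.fac₂ (ofInt v)| ≤ |F.fac₂ (ofInt w)|

/-- The scale from which best vectors have first factor at least one. -/
def scale₀ : ℝ := 2 * F.root + 4 * |(F.a : ℝ)| + 1

theorem exists_small {X : ℝ} (hX : F.scale₀ ≤ X) : ∃ v : ℤ × ℤ, v ≠ 0 ∧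
    |F.fac₁ (ofInt v)| ≤ X ∧ |F.fac₂ (ofInt v)| ≤ 2 * F.root / X := by
  have hS := F.root_pos
  rw [scale₀] at hX
  have ha := abs_nonneg (F.a : ℝ)
  obtain ⟨n, hn⟩ : ∃ n, n = ⌊X / (2 * F.root)⌋₊ := ⟨_, rfl⟩
  have hn0 : 0 < n := hn ▸ Nat.floor_pos.2 (by rw [le_div_iff₀ (by positivity)]; linarith)
  obtain ⟨j, k, hk0, hkn, hj⟩ := Real.exists_int_int_abs_mul_sub_le F.theta₂ hn0
  refine ⟨(-j, k), fun h => by simp [Prod.ext_iff] at h; omega, ?_⟩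
  have h2 : |F.fac₂ (ofInt (-j, k))| ≤ 1 / ((n : ℝ) + 1) := by
    refine le_of_eq_of_le (congrArg abs ?_) hj
    simp [fac₂, ofInt]
    ring
  have hn1 : X / (2 * F.root) < n + 1 := hn ▸ Nat.lt_floor_add_one _
  have hX0 : 0 < X := by linarith
  have h3 : |F.fac₂ (ofInt (-j, k))| ≤ 2 * F.root / X := by
    refine h2.trans ((one_div_le_one_div_of_le (by positivity) hn1.le).trans (le_of_eq ?_))
    rw [one_div_div]
  refine ⟨?_, h3⟩
  have e : F.fac₁ (ofInt (-j, k)) = F.a * F.fac₂ (ofInt (-j, k)) + F.root * k := by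
    rw [← F.theta₁_sub, fac₁, fac₂]
    simp [ofInt]
    ring
  have hkn' : (k : ℝ) ≤ X / (2 * F.root) :=
    (show (k : ℝ) ≤ n by exact_mod_cast hkn).trans (hn ▸ Nat.floor_le (by positivity))
  rw [le_div_iff₀ (by positivity)] at hkn'
  have hk0' : (0 : ℝ) < k := by exact_mod_cast hk0
  rw [e]
  refine (abs_add_le _ _).trans ?_
  rw [abs_mul, abs_of_pos (mul_pos hS hk0')]
  have h4 : |(F.a : ℝ)| * |F.fac₂ (ofInt (-j, k))| ≤ |(F.a : ℝ)| * 1 := by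
    refine mul_le_mul_of_nonneg_left (h3.trans ?_) ha
    rw [div_le_one₀ hX0]
    linarith
  linarith

theorem finite_box (R : ℝ) :
    {v : ℤ × ℤ | |F.fac₁ (ofInt v)| ≤ R ∧ |F.fac₂ (ofInt v)| ≤ R}.Finite := by
  obtain ⟨B, hB⟩ : ∃ B : ℝ, B = (1 + |(F.a : ℝ)| + |F.theta₁| + |F.theta₂|) * R / F.root :=
    ⟨_, rfl⟩
  refine (Finset.finite_toSet (Icc (-⌈B⌉) ⌈B⌉ ×ˢ Icc (-⌈B⌉) ⌈B⌉)).subset fun v hv => ?_
  have hS := F.root_pos
  have hR : 0 ≤ R := (abs_nonneg _).trans hv.1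
  have hb : ∀ z : ℝ, |z| ≤ (1 + |(F.a : ℝ)| + |F.theta₁| + |F.theta₂|) * R → |z / F.root| ≤ B := by
    intro z hz
    rw [abs_div, abs_of_pos hS, hB]
    gcongr
  have key := F.point_fac (ofInt v)
  rw [point] at key
  simp only [ofInt, Prod.mk.injEq] at key
  have hm : ∀ {z : ℤ}, |(z : ℝ)| ≤ B → z ∈ Icc (-⌈B⌉) ⌈B⌉ := by
    intro z hz
    have h := hz.trans (Int.le_ceil B)
    rw [← Int.cast_abs, Int.cast_le, abs_le] at h
    exact mem_Icc.2 h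
  have a1 := mul_le_mul_of_nonneg_left hv.2 (abs_nonneg F.theta₁)
  have a2 := mul_le_mul_of_nonneg_left hv.1 (abs_nonneg F.theta₂)
  have a3 := mul_le_mul_of_nonneg_left hv.2 (abs_nonneg (F.a : ℝ))
  have n1 := mul_nonneg (abs_nonneg F.theta₁) hR
  have n2 := mul_nonneg (abs_nonneg F.theta₂) hR
  have n3 := mul_nonneg (abs_nonneg (F.a : ℝ)) hR
  rw [mem_coe, mem_product]
  refine ⟨hm ?_, hm ?_⟩
  · rw [← key.1]
    refine hb _ ((abs_sub _ _).trans ?_)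
    rw [abs_mul, abs_mul]
    simp only [ofInt] at a1 a2
    linarith
  · rw [← key.2]
    refine hb _ ((abs_sub _ _).trans ?_)
    rw [abs_mul]
    have := hv.1
    simp only [ofInt] at this a3
    linarith

theorem exists_best {X : ℝ} (hX : F.scale₀ ≤ X) : ∃ v : ℤ × ℤ, F.IsBest v ∧
    |F.fac₁ (ofInt v)| ≤ X ∧ |F.fac₂ (ofInt v)| ≤ 2 * F.root / X := by
  obtain ⟨v₀, hv₀, h1, h2⟩ := F.exists_small hX
  obtain ⟨S, hS⟩ : ∃ S : Finset (ℤ × ℤ), S =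
      ((F.finite_box (max X (2 * F.root / X))).toFinset).filter fun v => v ≠ 0 ∧
        |F.fac₁ (ofInt v)| ≤ X ∧ |F.fac₂ (ofInt v)| ≤ 2 * F.root / X := ⟨_, rfl⟩
  have hmem : ∀ v : ℤ × ℤ, v ∈ S ↔ v ≠ 0 ∧ |F.fac₁ (ofInt v)| ≤ X ∧
      |F.fac₂ (ofInt v)| ≤ 2 * F.root / X := fun v => by
    rw [hS, mem_filter, Set.Finite.mem_toFinset]
    exact and_iff_right_of_imp fun h => ⟨h.2.1.trans (le_max_left _ _), h.2.2.trans (le_max_right _ _)⟩
  obtain ⟨v, hv, hmin⟩ := S.exists_min_image (fun v => |F.fac₂ (ofInt v)|)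
    ⟨v₀, (hmem v₀).2 ⟨hv₀, h1, h2⟩⟩
  rw [hmem] at hv
  refine ⟨v, ⟨hv.1, fun w hw hle => ?_⟩, hv.2.1, hv.2.2⟩
  by_contra! hlt
  exact absurd (hmin w ((hmem w).2 ⟨hw, hle.trans hv.2.1, hlt.le.trans hv.2.2⟩)) (not_le.2 hlt)

theorem IsBest.automorph {v : ℤ × ℤ} (hv : F.IsBest v) (n : ℤ) :
    ∃ w : ℤ × ℤ, F.IsBest w ∧ F.automorph n (ofInt v) = ofInt w := by
  obtain ⟨w, hw⟩ := F.exists_automorph_ofInt n v
  have hu : 0 < F.unit ^ n := zpow_pos (zero_lt_one.trans F.one_lt_unit) n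
  have e1 : F.fac₁ (ofInt w) = F.unit ^ n * F.fac₁ (ofInt v) := by rw [← hw, fac₁_automorph]
  have e2 : F.fac₂ (ofInt w) = (F.unit ^ n)⁻¹ * F.fac₂ (ofInt v) := by rw [← hw, fac₂_automorph]
  refine ⟨w, ⟨fun h => (F.fac_ne_zero hv.1).1 ?_, fun z hz hle => ?_⟩, hw⟩
  · have : F.fac₁ (ofInt w) = 0 := by simp [h, fac₁, ofInt]
    rw [e1] at this
    exact (mul_eq_zero.1 this).resolve_left hu.ne'
  obtain ⟨z', hz'⟩ := F.exists_automorph_ofInt (-n) z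
  have e3 : F.fac₁ (ofInt z') = (F.unit ^ n)⁻¹ * F.fac₁ (ofInt z) := by
    rw [← hz', fac₁_automorph, zpow_neg]
  have e4 : F.fac₂ (ofInt z') = F.unit ^ n * F.fac₂ (ofInt z) := by
    rw [← hz', fac₂_automorph, zpow_neg, inv_inv]
  have hz0 : z' ≠ 0 := fun h => by
    have : F.fac₁ (ofInt z') = 0 := by simp [h, fac₁, ofInt]
    rw [e3] at this
    exact (F.fac_ne_zero hz).1 ((mul_eq_zero.1 this).resolve_left (inv_ne_zero hu.ne'))
  have h := hv.2 z' hz0 (by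
    rw [e1, abs_mul, abs_of_pos hu] at hle
    rw [e3, abs_mul, abs_of_pos (inv_pos.2 hu), inv_mul_le_iff₀ hu]
    exact hle)
  rw [e4, abs_mul, abs_of_pos hu] at h
  rw [e2, abs_mul, abs_of_pos (inv_pos.2 hu), inv_mul_le_iff₀ hu]
  exact h

/-- The sizes of the first factor of best vectors, from one on. -/
def bestSizes : Set ℝ :=
  {r | 1 ≤ r ∧ ∃ v : ℤ × ℤ, F.IsBest v ∧ |F.fac₁ (ofInt v)| = r}

theorem eq_of_best {v v' : ℤ × ℤ} {Z : ℝ} (hv : F.IsBest v) (hv' : F.IsBest v')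
    (h1 : Z ≤ F.fac₁ (ofInt v) ∧ F.fac₁ (ofInt v) < 2 * Z)
    (h1' : Z ≤ F.fac₁ (ofInt v') ∧ F.fac₁ (ofInt v') < 2 * Z)
    (hsign : 0 < F.fac₂ (ofInt v) ↔ 0 < F.fac₂ (ofInt v')) :
    F.fac₁ (ofInt v) = F.fac₁ (ofInt v') := by
  wlog hle : |F.fac₂ (ofInt v)| ≤ |F.fac₂ (ofInt v')| generalizing v v' with H
  · exact (H hv' hv h1' h1 hsign.symm (le_of_not_ge hle)).symm
  rcases eq_or_ne (v' - v) 0 with h | h
  · rw [sub_eq_zero.1 h]
  have hd1 : F.fac₁ (ofInt (v' - v)) = F.fac₁ (ofInt v') - F.fac₁ (ofInt v) := by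
    rw [ofInt_sub, fac₁_sub]
  have hd2 : F.fac₂ (ofInt (v' - v)) = F.fac₂ (ofInt v') - F.fac₂ (ofInt v) := by
    rw [ofInt_sub, fac₂_sub]
  have hZ : 0 < Z := by linarith
  have hb := hv'.2 _ h (by
    rw [hd1, abs_of_pos (show 0 < F.fac₁ (ofInt v') by linarith), abs_le]
    constructor <;> linarith)
  rw [hd2] at hb
  exfalso
  have hne := (F.fac_ne_zero hv.1).2
  rcases lt_or_gt_of_ne hne with hneg | hpos
  · have hneg' : F.fac₂ (ofInt v') ≤ 0 := not_lt.1 fun hh => absurd (hsign.2 hh) (by linarith)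
    rw [abs_of_neg hneg, abs_of_nonpos hneg'] at hle
    rw [abs_of_nonpos hneg', abs_of_nonpos (show F.fac₂ (ofInt v') - F.fac₂ (ofInt v) ≤ 0 by
      linarith)] at hb
    linarith
  · have hpos' := hsign.1 hpos
    rw [abs_of_pos hpos, abs_of_pos hpos'] at hle
    rw [abs_of_pos hpos', abs_of_nonneg (show 0 ≤ F.fac₂ (ofInt v') - F.fac₂ (ofInt v) by
      linarith)] at hb
    linarith

theorem exists_pos_of_mem {r : ℝ} (hr : r ∈ F.bestSizes) :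
    ∃ v : ℤ × ℤ, F.IsBest v ∧ F.fac₁ (ofInt v) = r := by
  obtain ⟨-, v, hv, rfl⟩ := hr
  rcases le_or_gt 0 (F.fac₁ (ofInt v)) with h | h
  · exact ⟨v, hv, (abs_of_nonneg h).symm⟩
  have e1 : ∀ w, |F.fac₁ (ofInt (-w))| = |F.fac₁ (ofInt w)| := fun w => by
    rw [← abs_neg]; congr 1; simp [fac₁, ofInt]; ring
  have e2 : ∀ w, |F.fac₂ (ofInt (-w))| = |F.fac₂ (ofInt w)| := fun w => by
    rw [← abs_neg]; congr 1; simp [fac₂, ofInt]; ring
  refine ⟨-v, ⟨neg_ne_zero.2 hv.1, fun w hw hle => ?_⟩, ?_⟩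
  · rw [e1] at hle
    rw [e2]
    exact hv.2 w hw hle
  · rw [abs_of_neg h]
    simp [fac₁, ofInt]
    ring

theorem sparse_bestSizes : Sparse F.bestSizes := by
  classical
  intro j
  let P : Prop → ℝ → Prop := fun s r => r ∈ F.bestSizes ∧ (2 : ℝ) ^ j ≤ r ∧ r < 2 ^ (j + 1) ∧
    ∃ v : ℤ × ℤ, F.IsBest v ∧ F.fac₁ (ofInt v) = r ∧ (0 < F.fac₂ (ofInt v) ↔ s)
  refine ⟨if h : ∃ r, P True r then h.choose else 0, if h : ∃ r, P False r then h.choose else 0,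
    fun r hr h1 h2 => ?_⟩
  obtain ⟨v, hv, hvr⟩ := F.exists_pos_of_mem hr
  have key : ∀ (s : Prop) (h : ∃ r', P s r'), (0 < F.fac₂ (ofInt v) ↔ s) → r = h.choose := by
    intro s h hs
    obtain ⟨-, g1, g2, v', hv', hv'r, hs'⟩ := h.choose_spec
    have := F.eq_of_best (Z := 2 ^ j) hv hv' (by rw [hvr, ← pow_succ']; exact ⟨h1, h2⟩)
      (by rw [hv'r, ← pow_succ']; exact ⟨g1, g2⟩) (hs.trans hs'.symm)
    rwa [hvr, hv'r] at this
  by_cases hs : 0 < F.fac₂ (ofInt v)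
  · have h : ∃ r', P True r' := ⟨r, hr, h1, h2, v, hv, hvr, iff_true_intro hs⟩
    left
    rw [dif_pos h]
    exact key _ h (iff_true_intro hs)
  · have h : ∃ r', P False r' := ⟨r, hr, h1, h2, v, hv, hvr, iff_false_intro hs⟩
    right
    rw [dif_pos h]
    exact key _ h (iff_false_intro hs)

end IndefForm

end FA.DavenportEuclidean
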