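import Fermat.Agent.DavenportEuclidean.Best
import Mathlib.Algebra.Order.Archimedean.Basic
import Mathlib.Combinatorics.Pigeonhole

/-!
# Davenport's lower bound for the inhomogeneous minimum

A real point good at all large scales, two nearly congruent points of its orbit under the automorph,
and the periodic point shadowing the segment between them.
-/

set_option autoImplicit false

noncomputable section

namespace FA.DavenportEuclidean

namespace IndefForm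

variable (F : IndefForm)

theorem unit_pos : 0 < F.unit := zero_lt_one.trans F.one_lt_unit

theorem automorph_add (n : ℤ) (P Q : ℝ × ℝ) :
    F.automorph n (P + Q) = F.automorph n P + F.automorph n Q :=
  F.ext_fac (by simp only [fac₁_automorph, fac₁_add]; ring)
    (by simp only [fac₂_automorph, fac₂_add]; ring)

theorem automorph_automorph (m n : ℤ) (P : ℝ × ℝ) :
    F.automorph m (F.automorph n P) = F.automorph (m + n) P :=
  F.ext_fac (by simp only [fac₁_automorph, zpow_add₀ F.unit_pos.ne']; ring)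
    (by simp only [fac₂_automorph, zpow_add₀ F.unit_pos.ne', mul_inv]; ring)

theorem automorph_zero (P : ℝ × ℝ) : F.automorph 0 P = P :=
  F.ext_fac (by simp [fac₁_automorph]) (by simp [fac₂_automorph])

theorem ofInt_add (v w : ℤ × ℤ) : ofInt (v + w) = ofInt v + ofInt w := by simp [ofInt]

theorem cross_add (P Q R : ℝ × ℝ) : cross P (Q + R) = cross P Q + cross P R := by
  simp only [cross, Prod.fst_add, Prod.snd_add]; ring

/-- The orbit of a point of the line `fac₁ = 0`. -/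
def orbit (β : ℝ) (n : ℕ) : ℝ × ℝ := F.point 0 (F.root * β * F.unit ^ n)

theorem orbit_shift (β : ℝ) (n i : ℕ) :
    F.automorph (-(i : ℤ)) (F.orbit β n) = F.orbit β (n + i) := by
  refine F.ext_fac ?_ ?_
  · rw [fac₁_automorph, orbit, orbit, fac₁_point, fac₁_point, mul_zero]
  · rw [fac₂_automorph, orbit, orbit, fac₂_point, fac₂_point, zpow_neg, inv_inv, zpow_natCast,
      pow_add]
    ring

theorem exists_good : ∃ β : ℝ, ∀ (n : ℕ) (v : ℤ × ℤ), F.IsBest v → 1 ≤ |F.fac₁ (ofInt v)| →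
    ∀ m : ℤ, 1 / 4096 ≤ |cross (ofInt v) (F.orbit β n) - m| := by
  obtain ⟨β, hβ⟩ := exists_avoid F.sparse_bestSizes fun _ hc => hc.1
  refine ⟨β, fun n v hv h1 m => ?_⟩
  obtain ⟨w, hw, hwv⟩ := IsBest.automorph F hv n
  have e : F.fac₁ (ofInt w) = F.unit ^ n * F.fac₁ (ofInt v) := by
    rw [← hwv, fac₁_automorph, zpow_natCast]
  have hmem : |F.fac₁ (ofInt w)| ∈ F.bestSizes := by
    refine ⟨?_, w, hw, rfl⟩
    rw [e, abs_mul, abs_of_pos (pow_pos F.unit_pos n)]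
    exact one_le_mul_of_one_le_of_one_le (one_le_pow₀ F.one_lt_unit.le) h1
  have ecr : cross (ofInt v) (F.orbit β n) = -(F.fac₁ (ofInt w) * β) := by
    refine mul_left_cancel₀ F.root_pos.ne' ?_
    rw [root_mul_cross, orbit, fac₁_point, fac₂_point, e]
    ring
  rw [ecr]
  rcases le_total 0 (F.fac₁ (ofInt w)) with h | h
  · have h2 := hβ _ hmem (-m)
    rw [abs_of_nonneg h] at h2
    rw [← abs_neg]
    refine h2.trans_eq (congrArg abs ?_)
    push_cast
    ring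
  · have h2 := hβ _ hmem m
    rw [abs_of_nonpos h] at h2
    rwa [neg_mul] at h2

theorem exists_close (β : ℝ) {M : ℕ} (hM : 0 < M) : ∃ n n' : ℕ, n < n' ∧ ∃ g : ℤ × ℤ,
    |(F.orbit β n' - F.orbit β n - ofInt g).1| ≤ 1 / (M : ℝ) ∧
      |(F.orbit β n' - F.orbit β n - ofInt g).2| ≤ 1 / (M : ℝ) := by
  have hM0 : (0 : ℝ) < M := Nat.cast_pos.2 hM
  obtain ⟨a, -, b, -, hab, he⟩ := Finset.exists_ne_map_eq_of_card_lt_of_maps_to
    (s := Finset.range (M * M + 1))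
    (t := Finset.range M ×ˢ Finset.range M)
    (f := fun n => (⌊Int.fract (F.orbit β n).1 * M⌋₊, ⌊Int.fract (F.orbit β n).2 * M⌋₊))
    (by simp) fun n _ => by
      rw [Finset.mem_coe, Finset.mem_product, Finset.mem_range, Finset.mem_range]
      constructor <;> rw [Nat.floor_lt (by positivity)] <;>
        exact mul_lt_of_lt_one_left hM0 (Int.fract_lt_one _)
  wlog hlt : a < b generalizing a b with H
  · exact H b a hab.symm he.symm (lt_of_le_of_ne (not_lt.1 hlt) hab.symm)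
  simp only [Prod.mk.injEq] at he
  have key : ∀ x y : ℝ, ⌊Int.fract x * (M : ℝ)⌋₊ = ⌊Int.fract y * (M : ℝ)⌋₊ →
      |y - x - ((⌊y⌋ - ⌊x⌋ : ℤ) : ℝ)| ≤ 1 / (M : ℝ) := by
    intro x y h
    have h1 := Nat.floor_le (show 0 ≤ Int.fract x * (M : ℝ) by positivity)
    have h2 := Nat.lt_floor_add_one (Int.fract x * (M : ℝ))
    have h3 := Nat.floor_le (show 0 ≤ Int.fract y * (M : ℝ) by positivity)
    have h4 := Nat.lt_floor_add_one (Int.fract y * (M : ℝ))
    rw [← h] at h3 h4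
    rw [show y - x - ((⌊y⌋ - ⌊x⌋ : ℤ) : ℝ) = Int.fract y - Int.fract x by
      rw [← Int.self_sub_floor, ← Int.self_sub_floor]; push_cast; ring,
      le_div_iff₀ hM0, ← abs_of_pos hM0, ← abs_mul, abs_le]
    constructor <;> linarith
  exact ⟨a, b, hlt, (⌊(F.orbit β b).1⌋ - ⌊(F.orbit β a).1⌋, ⌊(F.orbit β b).2⌋ - ⌊(F.orbit β a).2⌋),
    key _ _ he.1, key _ _ he.2⟩

theorem exists_periodic (β : ℝ) {ρ : ℝ} (hρ : 0 < ρ) :
    ∃ (n N : ℕ) (g : ℤ × ℤ) (p : ℝ × ℝ), 0 < N ∧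
      F.automorph (-(N : ℤ)) p = p + ofInt g ∧ ∀ i ≤ N,
        |F.fac₁ (F.automorph (-(i : ℤ)) p - F.orbit β (n + i))| ≤ ρ ∧
        |F.fac₂ (F.automorph (-(i : ℤ)) p - F.orbit β (n + i))| ≤ ρ := by
  have hu1 := F.one_lt_unit
  have hu0 := F.unit_pos
  obtain ⟨H, hH⟩ : ∃ H : ℝ, H = |(F.a : ℝ)| + |F.theta₁| + 1 + |F.theta₂| := ⟨_, rfl⟩
  obtain ⟨κ, hκ⟩ : ∃ κ : ℝ, κ = F.unit / (F.unit - 1) := ⟨_, rfl⟩
  have hκ0 : 0 < κ := hκ ▸ div_pos hu0 (sub_pos.2 hu1)
  have hH0 : 0 < H := hH ▸ by positivity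
  obtain ⟨M, hM⟩ : ∃ M : ℕ, M = ⌈κ * H / ρ⌉₊ + 1 := ⟨_, rfl⟩
  have hM0 : (0 : ℝ) < M := Nat.cast_pos.2 (by omega)
  have hMρ : κ * (H / M) ≤ ρ := by
    rw [← mul_div_assoc, div_le_iff₀ hM0, mul_comm ρ, ← div_le_iff₀ hρ, hM, Nat.cast_add,
      Nat.cast_one]
    linarith [Nat.le_ceil (κ * H / ρ)]
  obtain ⟨n, n', hn, g, hg1, hg2⟩ := F.exists_close β (M := M) (by omega)
  obtain ⟨N, rfl⟩ : ∃ N, n' = n + N := ⟨n' - n, by omega⟩
  obtain ⟨r, hr⟩ : ∃ r, r = F.orbit β (n + N) - F.orbit β n - ofInt g := ⟨_, rfl⟩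
  rw [← hr] at hg1 hg2
  obtain ⟨R, hR⟩ : ∃ R : ℝ, R = F.unit ^ N := ⟨_, rfl⟩
  have hR1 : 1 < R := hR ▸ one_lt_pow₀ hu1 (by omega)
  have hRi : R⁻¹ < 1 := inv_lt_one_of_one_lt₀ hR1
  obtain ⟨e, he⟩ : ∃ e, e = F.point (F.fac₁ r / (1 - R⁻¹)) (-(F.fac₂ r / (R - 1))) := ⟨_, rfl⟩
  have hfr : |F.fac₁ r| ≤ H / M ∧ |F.fac₂ r| ≤ H / M := by
    rw [fac₁, fac₂, hH]
    have a1 := mul_le_mul_of_nonneg_left hg1 (abs_nonneg (F.a : ℝ))
    have a2 := mul_le_mul_of_nonneg_left hg2 (abs_nonneg F.theta₁)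
    have a3 := mul_le_mul_of_nonneg_left hg2 (abs_nonneg F.theta₂)
    have n0 : (0 : ℝ) ≤ 1 / M := by positivity
    have n1 := mul_nonneg (abs_nonneg (F.a : ℝ)) n0
    have n2 := mul_nonneg (abs_nonneg F.theta₁) n0
    have n3 := mul_nonneg (abs_nonneg F.theta₂) n0
    rw [div_eq_mul_one_div (_ + _ + _ + _) (M : ℝ)]
    constructor
    · refine (abs_add_le _ _).trans ?_
      rw [abs_mul, abs_mul]
      linarith
    · refine (abs_add_le _ _).trans ?_
      rw [abs_mul]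
      linarith
  refine ⟨n, N, g, F.orbit β n + e, by omega, ?_, fun i hi => ?_⟩
  · refine F.ext_fac ?_ ?_
    · rw [automorph_add, orbit_shift, fac₁_add, fac₁_add, fac₁_add, fac₁_automorph,
        he, fac₁_point, zpow_neg, zpow_natCast, ← hR]
      have h : F.fac₁ r = F.fac₁ (F.orbit β (n + N)) - F.fac₁ (F.orbit β n) -
          F.fac₁ (ofInt g) := by rw [hr, fac₁_sub, fac₁_sub]
      have h2 : F.fac₁ r / (1 - R⁻¹) * (1 - R⁻¹) = F.fac₁ r := div_mul_cancel₀ _ (by linarith)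
      linear_combination -h2 - h
    · rw [automorph_add, orbit_shift, fac₂_add, fac₂_add, fac₂_add, fac₂_automorph,
        he, fac₂_point, zpow_neg, inv_inv, zpow_natCast, ← hR]
      have h : F.fac₂ r = F.fac₂ (F.orbit β (n + N)) - F.fac₂ (F.orbit β n) -
          F.fac₂ (ofInt g) := by rw [hr, fac₂_sub, fac₂_sub]
      have h2 : F.fac₂ r / (R - 1) * (R - 1) = F.fac₂ r := div_mul_cancel₀ _ (by linarith)
      linear_combination -h2 - h
  · rw [automorph_add, orbit_shift, add_sub_cancel_left, fac₁_automorph, fac₂_automorph, he,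
      fac₁_point, fac₂_point, zpow_neg, inv_inv, zpow_natCast]
    have hui : 0 < F.unit ^ i := pow_pos hu0 i
    have hui1 : (F.unit ^ i)⁻¹ ≤ 1 := inv_le_one_of_one_le₀ (one_le_pow₀ hu1.le)
    have huR : F.unit ^ i ≤ R := hR ▸ pow_le_pow_right₀ hu1.le hi
    have hRκ : R / (R - 1) ≤ κ := by
      rw [hκ, div_le_div_iff₀ (by linarith) (by linarith)]
      have : F.unit ≤ R := hR ▸ le_self_pow₀ hu1.le (by omega)
      linarith
    have eR : 1 - R⁻¹ = (R - 1) / R := by field_simp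
    constructor
    · rw [eR, abs_mul, abs_of_pos (inv_pos.2 hui), abs_div,
        abs_of_pos (show 0 < (R - 1) / R by apply div_pos <;> linarith), div_div_eq_mul_div,
        mul_div_assoc]
      refine le_trans (mul_le_of_le_one_left (mul_nonneg (abs_nonneg _)
        (div_nonneg (by linarith) (by linarith))) hui1) ?_
      refine le_trans (mul_le_mul hfr.1 hRκ (div_nonneg (by linarith) (by linarith))
        (by positivity)) ?_
      rw [mul_comm]
      exact hMρ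
    · rw [mul_neg, abs_neg, abs_mul, abs_of_pos hui, abs_div,
        abs_of_pos (show 0 < R - 1 by linarith), ← mul_div_assoc, mul_comm, mul_div_assoc]
      refine le_trans (mul_le_mul hfr.2 ((div_le_div_of_nonneg_right huR (by linarith)).trans hRκ)
        (div_nonneg hui.le (by linarith)) (by positivity)) ?_
      rw [mul_comm]
      exact hMρ

theorem exists_rat {p : ℝ × ℝ} {g : ℤ × ℤ} {N : ℕ} (hN : 0 < N)
    (h : F.automorph (-(N : ℤ)) p = p + ofInt g) :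
    ∃ x y : ℚ, p = ((x : ℝ), (y : ℝ)) := by
  obtain ⟨T, U, hT, hU, hact⟩ : ∃ T U : ℤ, (T : ℝ) + U * F.root = F.unit ^ (-(N : ℤ)) ∧
      (T : ℝ) - U * F.root = (F.unit ^ (-(N : ℤ)))⁻¹ ∧ F.act T U p = p + ofInt g :=
    ⟨_, _, (F.exists_solution _).choose_spec.choose_spec.1,
      (F.exists_solution _).choose_spec.choose_spec.2, h⟩
  rw [zpow_neg, zpow_natCast] at hT
  rw [zpow_neg, zpow_natCast, inv_inv] at hU
  have hR : 1 < F.unit ^ N := one_lt_pow₀ F.one_lt_unit hN.ne'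
  have hmul : ((T : ℝ) + U * F.root) * (T - U * F.root) = 1 := by
    rw [hT, hU, inv_mul_cancel₀ (by linarith)]
  have hT1 : (2 : ℝ) - 2 * T ≠ 0 := by
    intro h0
    have e : (F.unit ^ N)⁻¹ = 2 - F.unit ^ N := by linarith
    have := inv_mul_cancel₀ (show F.unit ^ N ≠ 0 by linarith)
    rw [e] at this
    nlinarith [mul_pos (sub_pos.2 hR) (sub_pos.2 hR)]
  simp only [act, ofInt, Prod.ext_iff, Prod.fst_add, Prod.snd_add] at hact
  obtain ⟨h1, h2⟩ := hact
  refine ⟨((g.1 : ℚ) * (T + F.b * U - 1) + 2 * F.c * U * g.2) / (2 - 2 * T),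
    ((g.2 : ℚ) * (T - F.b * U - 1) - 2 * F.a * U * g.1) / (2 - 2 * T), Prod.ext ?_ ?_⟩
  · push_cast
    rw [eq_div_iff hT1]
    linear_combination ((T : ℝ) + F.b * U - 1) * h1 + 2 * (F.c : ℝ) * U * h2 - p.1 * hmul -
      p.1 * (U : ℝ) ^ 2 * F.root_sq
  · push_cast
    rw [eq_div_iff hT1]
    linear_combination ((T : ℝ) - F.b * U - 1) * h2 - 2 * (F.a : ℝ) * U * h1 - p.2 * hmul -
      p.2 * (U : ℝ) ^ 2 * F.root_sq

theorem exists_automorph_mul {p : ℝ × ℝ} {g : ℤ × ℤ} {N : ℤ}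
    (h : F.automorph N p = p + ofInt g) (q : ℤ) : ∃ g', F.automorph (q * N) p = p + ofInt g' := by
  induction q with
  | zero => exact ⟨0, by simp [automorph_zero, ofInt]⟩
  | succ i ih =>
    obtain ⟨g', hg'⟩ := ih
    obtain ⟨g'', hg''⟩ := F.exists_automorph_ofInt ((i : ℤ) * N) g
    refine ⟨g' + g'', ?_⟩
    rw [add_mul, one_mul, ← automorph_automorph, h, automorph_add, hg', hg'', ofInt_add, add_assoc]
  | pred i ih =>
    obtain ⟨g', hg'⟩ := ih
    have hb : F.automorph (-N) p = p - F.automorph (-N) (ofInt g) := by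
      have := congrArg (F.automorph (-N)) h
      rw [automorph_automorph, neg_add_cancel, automorph_zero, automorph_add] at this
      exact eq_sub_of_add_eq this.symm
    obtain ⟨g'', hg''⟩ := F.exists_automorph_ofInt (-N) g
    obtain ⟨g₃, hg₃⟩ := F.exists_automorph_ofInt (-(i : ℤ) * N) (-g'')
    refine ⟨g' + g₃, ?_⟩
    rw [sub_mul, one_mul, sub_eq_add_neg, ← automorph_automorph, hb, hg'', sub_eq_add_neg,
      ← ofInt_neg, automorph_add, hg', hg₃, ofInt_add, add_assoc]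

theorem exists_inhomogeneous : ∃ x y : ℚ, ∀ g : ℤ × ℤ,
    F.root / 2 ^ 29 ≤ |F.value ((x : ℝ) - g.1, (y : ℝ) - g.2)| := by
  obtain ⟨β, hgood⟩ := F.exists_good
  have hS := F.root_pos
  have hu1 := F.one_lt_unit
  have hu0 := F.unit_pos
  obtain ⟨X₀, hX₀⟩ : ∃ X, X = F.scale₀ := ⟨_, rfl⟩
  have hX₀S : 2 * F.root + 1 ≤ X₀ := by
    rw [hX₀, scale₀]; linarith [abs_nonneg (F.a : ℝ)]
  have hB : (0 : ℝ) < F.unit * X₀ + 1 :=
    add_pos (mul_pos hu0 (by linarith)) one_pos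
  obtain ⟨n, N, g₀, p, hN, hper, hclose⟩ := F.exists_periodic β
    (show 0 < F.root / (8192 * (F.unit * X₀ + 1)) by positivity)
  -- best vectors at scales between `X₀` and `u X₀` separate the orbit of `p` from the lattice
  have hsep : ∀ i ≤ N, ∀ X, X₀ ≤ X → X ≤ F.unit * X₀ → ∃ v : ℤ × ℤ,
      |F.fac₁ (ofInt v)| ≤ X ∧ |F.fac₂ (ofInt v)| ≤ 2 * F.root / X ∧ ∀ h : ℤ × ℤ,
        1 / 8192 ≤ |cross (ofInt v) (F.automorph (-(i : ℤ)) p + ofInt h)| := by
    intro i hi X hX hX'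
    obtain ⟨v, hv, hv1, hv2⟩ := F.exists_best (hX₀ ▸ hX)
    have hXpos : 0 < X := by linarith
    have hv2' : |F.fac₂ (ofInt v)| ≤ 1 := hv2.trans ((div_le_one₀ hXpos).2 (by linarith))
    have hge : 1 ≤ |F.fac₁ (ofInt v)| :=
      (F.one_le_abs_mul_fac hv.1).trans (mul_le_of_le_one_right (abs_nonneg _) hv2')
    refine ⟨v, hv1, hv2, fun h => ?_⟩
    obtain ⟨d, hd⟩ : ∃ d, d = F.automorph (-(i : ℤ)) p - F.orbit β (n + i) := ⟨_, rfl⟩
    obtain ⟨hd1, hd2⟩ := hclose i hi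
    rw [← hd] at hd1 hd2
    obtain ⟨m, hm⟩ : ∃ m : ℤ, cross (ofInt v) (ofInt h) = m :=
      ⟨v.1 * h.2 - v.2 * h.1, by simp [cross, ofInt]⟩
    have hsmall : |cross (ofInt v) d| ≤ 1 / 8192 := by
      refine le_of_mul_le_mul_left ?_ hS
      rw [← abs_of_pos hS, ← abs_mul, root_mul_cross, abs_of_pos hS]
      refine (abs_sub _ _).trans ?_
      rw [abs_mul, abs_mul]
      have h1 := mul_le_mul hv2' hd1 (abs_nonneg _) zero_le_one
      have h2 := mul_le_mul (hv1.trans hX') hd2 (abs_nonneg _) (mul_nonneg hu0.le (by linarith))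
      have h3 : F.root * (1 / 8192) =
          (F.unit * X₀ + 1) * (F.root / (8192 * (F.unit * X₀ + 1))) := by
        field_simp
      rw [h3]
      linarith
    rw [show F.automorph (-(i : ℤ)) p + ofInt h = F.orbit β (n + i) + d + ofInt h by rw [hd]; abel,
      cross_add, cross_add, hm]
    have := hgood (n + i) v hv hge (-m)
    push_cast at this
    have h4 := abs_sub (cross (ofInt v) (F.orbit β (n + i)) + cross (ofInt v) d + (m : ℝ))
      (cross (ofInt v) d)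
    rw [show cross (ofInt v) (F.orbit β (n + i)) + cross (ofInt v) d + (m : ℝ) -
      cross (ofInt v) d = cross (ofInt v) (F.orbit β (n + i)) - -(m : ℝ) by ring] at h4
    linarith
  obtain ⟨x, y, hxy⟩ := F.exists_rat hN hper
  refine ⟨x, y, fun g => ?_⟩
  obtain ⟨w, hw⟩ : ∃ w, w = p - ofInt g := ⟨_, rfl⟩
  rw [show (((x : ℝ) - g.1, (y : ℝ) - g.2) : ℝ × ℝ) = w by rw [hw, hxy]; rfl]
  have hw0 : F.value w ≠ 0 := by
    intro h0
    have e : w = (((x - g.1 : ℚ) : ℝ), ((y - g.2 : ℚ) : ℝ)) := by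
      rw [hw, hxy]; simp [ofInt]
    rw [e] at h0
    obtain ⟨e1, e2⟩ := F.eq_zero_of_value_eq_zero h0
    rw [e1, e2, Rat.cast_zero] at e
    obtain ⟨v, -, -, hv⟩ := hsep 0 (Nat.zero_le _) X₀ le_rfl
      (le_mul_of_one_le_left (by linarith) hu1.le)
    have := hv (-g)
    rw [Nat.cast_zero, neg_zero, automorph_zero, ofInt_neg, ← sub_eq_add_neg, ← hw, e] at this
    norm_num [cross] at this
  rw [value_eq, mul_ne_zero_iff] at hw0
  obtain ⟨z, hz⟩ : ∃ z, z = Real.sqrt (2 * F.root * |F.fac₁ w| / |F.fac₂ w|) / X₀ := ⟨_, rfl⟩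
  have hX₀0 : 0 < X₀ := by linarith
  have hz0 : 0 < z := by
    have := abs_pos.2 hw0.1
    have := abs_pos.2 hw0.2
    rw [hz]; positivity
  obtain ⟨k, hk1, hk2⟩ := exists_mem_Ico_zpow hz0 hu1
  obtain ⟨q, i, hi, hki⟩ : ∃ (q : ℤ) (i : ℕ), i ≤ N ∧ k = q * N + i := by
    refine ⟨k / N, (k % N).toNat, ?_, ?_⟩
    · have := Int.emod_lt_of_pos k (show (0 : ℤ) < N by omega)
      omega
    · rw [Int.toNat_of_nonneg (Int.emod_nonneg k (by omega))]
      exact (Int.mul_comm _ _ ▸ (Int.mul_ediv_add_emod k N).symm)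
  obtain ⟨X, hX⟩ : ∃ X, X = z * X₀ / F.unit ^ k := ⟨_, rfl⟩
  have huk : 0 < F.unit ^ k := zpow_pos hu0 k
  have hXlo : X₀ ≤ X := by
    rw [hX, le_div_iff₀ huk, mul_comm]
    exact mul_le_mul_of_nonneg_right hk1 hX₀0.le
  have hXhi : X ≤ F.unit * X₀ := by
    rw [hX, div_le_iff₀ huk, mul_right_comm]
    refine mul_le_mul_of_nonneg_right (hk2.le.trans_eq ?_) hX₀0.le
    rw [zpow_add_one₀ hu0.ne', mul_comm]
  obtain ⟨v, hv1, hv2, hv⟩ := hsep i hi X hXlo hXhi
  obtain ⟨g', hg'⟩ := F.exists_automorph_mul hper q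
  obtain ⟨h, hh⟩ : ∃ h : ℤ × ℤ, F.automorph (-k) w = F.automorph (-(i : ℤ)) p + ofInt h := by
    obtain ⟨g₁, hg₁⟩ := F.exists_automorph_ofInt (-(i : ℤ)) g'
    obtain ⟨g₂, hg₂⟩ := F.exists_automorph_ofInt (-k) (-g)
    refine ⟨g₁ + g₂, ?_⟩
    rw [hw, sub_eq_add_neg p, ← ofInt_neg, automorph_add, hg₂, hki,
      show -(q * (N : ℤ) + i) = -(i : ℤ) + q * -(N : ℤ) by ring, ← automorph_automorph,
      hg', automorph_add, hg₁, ofInt_add, add_assoc]
  have hX0 : 0 < X := hX₀0.trans_le hXlo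
  obtain ⟨W, hW⟩ : ∃ W, W = F.automorph (-k) w := ⟨_, rfl⟩
  have hW1 : |F.fac₁ W| = |F.fac₁ w| / F.unit ^ k := by
    rw [hW, fac₁_automorph, zpow_neg, abs_mul, abs_of_pos (inv_pos.2 huk), inv_mul_eq_div]
  have hW2 : |F.fac₂ W| = F.unit ^ k * |F.fac₂ w| := by
    rw [hW, fac₂_automorph, zpow_neg, inv_inv, abs_mul, abs_of_pos huk]
  have hbal : 2 * F.root * |F.fac₁ W| = X ^ 2 * |F.fac₂ W| := by
    have hsq : (z * X₀) ^ 2 * |F.fac₂ w| = 2 * F.root * |F.fac₁ w| := by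
      rw [hz, div_mul_cancel₀ _ hX₀0.ne', Real.sq_sqrt (by positivity),
        div_mul_cancel₀ _ (abs_ne_zero.2 hw0.2)]
    rw [hW1, hW2, hX]
    field_simp
    linear_combination -hsq
  have hmain : F.root / 8192 ≤ 2 * (X * |F.fac₂ W|) := by
    have h1 := mul_le_mul_of_nonneg_left (hh ▸ hv h) hS.le
    rw [← hW, ← abs_of_pos hS, ← abs_mul, root_mul_cross, abs_of_pos hS] at h1
    refine le_trans ?_ (le_trans h1 ((abs_sub _ _).trans ?_))
    · linarith
    rw [abs_mul, abs_mul]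
    have h2 := mul_le_mul_of_nonneg_right hv2 (abs_nonneg (F.fac₁ W))
    have h3 := mul_le_mul_of_nonneg_right hv1 (abs_nonneg (F.fac₂ W))
    have h4 : 2 * F.root / X * |F.fac₁ W| = X * |F.fac₂ W| := by
      rw [div_mul_eq_mul_div, hbal]
      field_simp
    linarith
  rw [value_eq, abs_mul]
  have h5 : (X * |F.fac₂ W|) ^ 2 = 2 * F.root * (|F.fac₁ w| * |F.fac₂ w|) := by
    rw [mul_pow, sq |F.fac₂ W|, ← mul_assoc, ← hbal, hW1, hW2]
    field_simp
  have h6 := pow_le_pow_left₀ (by positivity) hmain 2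
  rw [mul_pow 2, h5] at h6
  refine le_of_mul_le_mul_left ?_ (show 0 < 8 * F.root by positivity)
  linarith

end IndefForm

end FA.DavenportEuclidean
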