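import Mathlib.NumberTheory.Pell
import Mathlib.NumberTheory.DiophantineApproximation.Basic
import Mathlib.Analysis.Real.Sqrt
import Mathlib.Tactic.LinearCombination

/-!
# The two linear factors of an indefinite form and its automorphs

`a x² + b x y + c y² = (a x + θ₁ y)(x + θ₂ y)`; a solution of `T² - D U² = 1` gives an integral map
multiplying the factors by `T ± U √D`.
-/

set_option autoImplicit false

noncomputable section

namespace FA.DavenportEuclidean

/-- An integral form of positive discriminant, not a square. -/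
structure IndefForm where
  /-- The coefficient of `x²`. -/
  a : ℤ
  /-- The coefficient of `x y`. -/
  b : ℤ
  /-- The coefficient of `y²`. -/
  c : ℤ
  pos : 0 < b ^ 2 - 4 * a * c
  notSquare : ¬ IsSquare (b ^ 2 - 4 * a * c)

namespace IndefForm

variable (F : IndefForm)

/-- The discriminant. -/
def disc : ℤ := F.b ^ 2 - 4 * F.a * F.c

/-- The square root of the discriminant. -/
def root : ℝ := Real.sqrt F.disc

theorem root_pos : 0 < F.root := Real.sqrt_pos.2 (Int.cast_pos.2 F.pos)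

theorem root_sq : F.root ^ 2 = (F.b : ℝ) ^ 2 - 4 * F.a * F.c := by
  rw [root, Real.sq_sqrt (Int.cast_nonneg (show 0 ≤ F.disc from F.pos.le)), disc]
  push_cast
  rfl

theorem a_ne_zero : F.a ≠ 0 := fun h => F.notSquare ⟨F.b, by rw [h]; ring⟩

theorem a_real_ne_zero : (F.a : ℝ) ≠ 0 := Int.cast_ne_zero.2 F.a_ne_zero

/-- The root `θ₁`. -/
def theta₁ : ℝ := (F.b + F.root) / 2

/-- The root `θ₂`. -/
def theta₂ : ℝ := (F.b - F.root) / (2 * F.a)

/-- The value at a point. -/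
def value (P : ℝ × ℝ) : ℝ := F.a * P.1 ^ 2 + F.b * P.1 * P.2 + F.c * P.2 ^ 2

/-- The first factor. -/
def fac₁ (P : ℝ × ℝ) : ℝ := F.a * P.1 + F.theta₁ * P.2

/-- The second factor. -/
def fac₂ (P : ℝ × ℝ) : ℝ := P.1 + F.theta₂ * P.2

theorem theta₁_sub : F.theta₁ - F.a * F.theta₂ = F.root := by
  rw [theta₁, theta₂]
  field_simp [F.a_real_ne_zero]
  ring

theorem value_eq (P : ℝ × ℝ) : F.value P = F.fac₁ P * F.fac₂ P := by
  have e1 : F.a * F.theta₂ + F.theta₁ = (F.b : ℝ) := by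
    rw [theta₁, theta₂]
    field_simp [F.a_real_ne_zero]
    ring
  have e2 : F.theta₁ * F.theta₂ = (F.c : ℝ) := by
    rw [theta₁, theta₂]
    field_simp [F.a_real_ne_zero]
    linear_combination -F.root_sq
  rw [value, fac₁, fac₂]
  linear_combination -(P.1 * P.2) * e1 - P.2 ^ 2 * e2

theorem fac₁_add (P Q : ℝ × ℝ) : F.fac₁ (P + Q) = F.fac₁ P + F.fac₁ Q := by
  simp only [fac₁, Prod.fst_add, Prod.snd_add]; ring

theorem fac₂_add (P Q : ℝ × ℝ) : F.fac₂ (P + Q) = F.fac₂ P + F.fac₂ Q := by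
  simp only [fac₂, Prod.fst_add, Prod.snd_add]; ring

theorem fac₁_sub (P Q : ℝ × ℝ) : F.fac₁ (P - Q) = F.fac₁ P - F.fac₁ Q := by
  simp only [fac₁, Prod.fst_sub, Prod.snd_sub]; ring

theorem fac₂_sub (P Q : ℝ × ℝ) : F.fac₂ (P - Q) = F.fac₂ P - F.fac₂ Q := by
  simp only [fac₂, Prod.fst_sub, Prod.snd_sub]; ring

/-- The point with given factors. -/
def point (s t : ℝ) : ℝ × ℝ :=
  ((F.theta₁ * t - F.theta₂ * s) / F.root, (s - F.a * t) / F.root)

theorem fac₁_point (s t : ℝ) : F.fac₁ (F.point s t) = s := by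
  rw [fac₁, point]
  field_simp [F.root_pos.ne']
  linear_combination s * F.theta₁_sub

theorem fac₂_point (s t : ℝ) : F.fac₂ (F.point s t) = t := by
  rw [fac₂, point]
  field_simp [F.root_pos.ne']
  linear_combination t * F.theta₁_sub

theorem point_fac (P : ℝ × ℝ) : F.point (F.fac₁ P) (F.fac₂ P) = P := by
  obtain ⟨x, y⟩ := P
  rw [point, fac₁, fac₂]
  simp only [Prod.mk.injEq]
  constructor <;> field_simp [F.root_pos.ne']
  · linear_combination x * F.theta₁_sub
  · linear_combination y * F.theta₁_sub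

theorem ext_fac {P Q : ℝ × ℝ} (h1 : F.fac₁ P = F.fac₁ Q) (h2 : F.fac₂ P = F.fac₂ Q) : P = Q := by
  rw [← F.point_fac P, h1, h2, F.point_fac]

/-- The cross product. -/
def cross (P Q : ℝ × ℝ) : ℝ := P.1 * Q.2 - P.2 * Q.1

theorem root_mul_cross (P Q : ℝ × ℝ) :
    F.root * cross P Q = F.fac₂ P * F.fac₁ Q - F.fac₁ P * F.fac₂ Q := by
  rw [cross, fac₁, fac₁, fac₂, fac₂, ← F.theta₁_sub]
  ring

/-- An integral point. -/
def ofInt (v : ℤ × ℤ) : ℝ × ℝ := ((v.1 : ℝ), (v.2 : ℝ))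

theorem ofInt_sub (v w : ℤ × ℤ) : ofInt (v - w) = ofInt v - ofInt w := by
  simp [ofInt]

theorem ofInt_neg (v : ℤ × ℤ) : ofInt (-v) = -ofInt v := by simp [ofInt]

theorem ofInt_injective : Function.Injective ofInt := fun v w h => by
  simp only [ofInt, Prod.mk.injEq, Int.cast_inj] at h
  exact Prod.ext h.1 h.2

theorem eq_zero_of_value_eq_zero {x y : ℚ} (h : F.value ((x : ℝ), (y : ℝ)) = 0) :
    x = 0 ∧ y = 0 := by
  have h' : (F.a : ℚ) * x ^ 2 + F.b * x * y + F.c * y ^ 2 = 0 := by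
    simp only [value] at h
    exact_mod_cast h
  rcases eq_or_ne y 0 with rfl | hy
  · have ha : (F.a : ℚ) ≠ 0 := Int.cast_ne_zero.2 F.a_ne_zero
    simp [ha] at h'
    exact ⟨h', rfl⟩
  · refine absurd (Rat.isSquare_intCast_iff.1
      ⟨(2 * F.a * x + F.b * y) / y, ?_⟩) F.notSquare
    field_simp
    push_cast
    linear_combination -4 * (F.a : ℚ) * h'

theorem fac_ne_zero {v : ℤ × ℤ} (hv : v ≠ 0) :
    F.fac₁ (ofInt v) ≠ 0 ∧ F.fac₂ (ofInt v) ≠ 0 := by
  have h : F.value (ofInt v) ≠ 0 := fun h => hv <| by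
    have := F.eq_zero_of_value_eq_zero (x := v.1) (y := v.2) (by simpa [ofInt] using h)
    exact Prod.ext (Int.cast_eq_zero.1 this.1) (Int.cast_eq_zero.1 this.2)
  rwa [value_eq, mul_ne_zero_iff] at h

theorem one_le_abs_mul_fac {v : ℤ × ℤ} (hv : v ≠ 0) :
    1 ≤ |F.fac₁ (ofInt v)| * |F.fac₂ (ofInt v)| := by
  rw [← abs_mul, ← value_eq, show F.value (ofInt v) =
    ((F.a * v.1 ^ 2 + F.b * v.1 * v.2 + F.c * v.2 ^ 2 : ℤ) : ℝ) by simp [value, ofInt],
    ← Int.cast_abs]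
  refine Int.cast_one (R := ℝ) ▸ Int.cast_le.2 (Int.one_le_abs fun h0 => ?_)
  refine hv ?_
  have := F.eq_zero_of_value_eq_zero (x := v.1) (y := v.2) (by
    simp only [value, Rat.cast_intCast]
    exact_mod_cast h0)
  exact Prod.ext (Int.cast_eq_zero.1 this.1) (Int.cast_eq_zero.1 this.2)

/-- The map of a solution `(T, U)` of the Pell equation. -/
def act (T U : ℝ) (P : ℝ × ℝ) : ℝ × ℝ :=
  ((T - F.b * U) * P.1 - 2 * F.c * U * P.2, 2 * F.a * U * P.1 + (T + F.b * U) * P.2)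

theorem fac₁_act (T U : ℝ) (P : ℝ × ℝ) :
    F.fac₁ (F.act T U P) = (T + U * F.root) * F.fac₁ P := by
  rw [fac₁, fac₁, act, theta₁]
  linear_combination -(U * P.2) / 2 * F.root_sq

theorem fac₂_act (T U : ℝ) (P : ℝ × ℝ) :
    F.fac₂ (F.act T U P) = (T - U * F.root) * F.fac₂ P := by
  rw [fac₂, fac₂, act, theta₂]
  field_simp [F.a_real_ne_zero]
  linear_combination -(U * P.2) * F.root_sq

theorem exists_unit : ∃ T U : ℤ, T ^ 2 - F.disc * U ^ 2 = 1 ∧ 1 < (T : ℝ) + U * F.root := by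
  obtain ⟨x, y, h, hy⟩ := Pell.exists_of_not_isSquare (d := F.disc) F.pos F.notSquare
  refine ⟨|x|, |y|, by rw [sq_abs, sq_abs, h], ?_⟩
  have hx : (1 : ℝ) ≤ (|x| : ℤ) := by
    exact_mod_cast Int.one_le_abs (fun e => by rw [e] at h; nlinarith [sq_nonneg y, F.pos,
      show F.disc = F.b ^ 2 - 4 * F.a * F.c from rfl])
  have hy' : (0 : ℝ) < (|y| : ℤ) := Int.cast_pos.2 (abs_pos.2 hy)
  nlinarith [mul_pos hy' F.root_pos]

/-- The unit. -/
def unit : ℝ := (F.exists_unit.choose : ℝ) + F.exists_unit.choose_spec.choose * F.root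

theorem one_lt_unit : 1 < F.unit := F.exists_unit.choose_spec.choose_spec.2

theorem exists_solution : ∀ n : ℤ, ∃ T U : ℤ,
    (T : ℝ) + U * F.root = F.unit ^ n ∧ (T : ℝ) - U * F.root = (F.unit ^ n)⁻¹ := by
  obtain ⟨T, hT⟩ : ∃ T, T = F.exists_unit.choose := ⟨_, rfl⟩
  obtain ⟨U, hU⟩ : ∃ U, U = F.exists_unit.choose_spec.choose := ⟨_, rfl⟩
  have hu : F.unit = (T : ℝ) + U * F.root := by rw [unit, hT, hU]
  have hTU : T ^ 2 - F.disc * U ^ 2 = 1 := hT ▸ hU ▸ F.exists_unit.choose_spec.choose_spec.1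
  have hTU' : ((T : ℝ) + U * F.root) * (T - U * F.root) = 1 := by
    have h := congrArg (Int.cast : ℤ → ℝ) hTU
    rw [disc] at h
    push_cast at h
    linear_combination h - (U : ℝ) ^ 2 * F.root_sq
  have hu0 : F.unit ≠ 0 := by linarith [F.one_lt_unit]
  have hinv : F.unit⁻¹ = (T : ℝ) - U * F.root := inv_eq_of_mul_eq_one_right (hu ▸ hTU')
  have hS : F.root ^ 2 = (F.disc : ℝ) := by rw [root_sq, disc]; push_cast; ring
  intro n
  induction n with
  | zero => exact ⟨1, 0, by simp, by simp⟩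
  | succ i ih =>
    obtain ⟨A, B, h1, h2⟩ := ih
    refine ⟨A * T + F.disc * B * U, A * U + B * T, ?_, ?_⟩
    · rw [zpow_add_one₀ hu0, ← h1, hu]
      push_cast
      linear_combination -(B : ℝ) * U * hS
    · rw [zpow_add_one₀ hu0, mul_inv, ← h2, hinv]
      push_cast
      linear_combination -(B : ℝ) * U * hS
  | pred i ih =>
    obtain ⟨A, B, h1, h2⟩ := ih
    refine ⟨A * T - F.disc * B * U, B * T - A * U, ?_, ?_⟩
    · rw [zpow_sub_one₀ hu0, ← h1, hinv]
      push_cast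
      linear_combination (B : ℝ) * U * hS
    · rw [zpow_sub_one₀ hu0, mul_inv, ← h2, inv_inv, hu]
      push_cast
      linear_combination (B : ℝ) * U * hS

/-- The automorph multiplying the factors by `u ^ n` and `u ^ (-n)`. -/
def automorph (n : ℤ) (P : ℝ × ℝ) : ℝ × ℝ :=
  F.act (F.exists_solution n).choose (F.exists_solution n).choose_spec.choose P

theorem fac₁_automorph (n : ℤ) (P : ℝ × ℝ) :
    F.fac₁ (F.automorph n P) = F.unit ^ n * F.fac₁ P := by
  rw [automorph, fac₁_act, (F.exists_solution n).choose_spec.choose_spec.1]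

theorem fac₂_automorph (n : ℤ) (P : ℝ × ℝ) :
    F.fac₂ (F.automorph n P) = (F.unit ^ n)⁻¹ * F.fac₂ P := by
  rw [automorph, fac₂_act, (F.exists_solution n).choose_spec.choose_spec.2]

theorem exists_automorph_ofInt (n : ℤ) (v : ℤ × ℤ) : ∃ w, F.automorph n (ofInt v) = ofInt w := by
  let T : ℤ := (F.exists_solution n).choose
  let U : ℤ := (F.exists_solution n).choose_spec.choose
  refine ⟨((T - F.b * U) * v.1 - 2 * F.c * U * v.2, 2 * F.a * U * v.1 + (T + F.b * U) * v.2), ?_⟩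
  simp [automorph, act, ofInt, T, U]

end IndefForm

end FA.DavenportEuclidean
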