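import Fermat.Agent.DavenportEuclidean.Closing
import Fermat.Agent.EuclideanLenstra.Criterion
import Mathlib.RingTheory.Norm.Transitivity
import Mathlib.RingTheory.Discriminant

/-!
# Real quadratic fields

The norm on a basis of the integers is a form of discriminant `discr K`; so some element stays at
norm distance `≫ √discr` from all integers, and a norm-Euclidean field has bounded discriminant.
-/

set_option autoImplicit false
set_option linter.style.haveILetI false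

noncomputable section

namespace FA.DavenportEuclidean

open NumberField Module FA.LenstraEuclid

variable (K : Type*) [Field K] [NumberField K]

theorem exists_form (hK : finrank ℚ K = 2) :
    ∃ (ω : Basis (Fin 2) ℤ (𝓞 K)) (σ : Fin 2 → K →ₐ[ℚ] ℂ) (a b c : ℤ),
      b ^ 2 - 4 * a * c = discr K ∧
      (discr K : ℂ) =
        (σ 0 (ω 0 : K) * σ 1 (ω 1 : K) - σ 1 (ω 0 : K) * σ 0 (ω 1 : K)) ^ 2 ∧
      ∀ x y : ℚ, Algebra.norm ℚ ((x : K) * (ω 0 : K) + (y : K) * (ω 1 : K)) =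
        a * x ^ 2 + b * x * y + c * y ^ 2 := by
  have hcard : Fintype.card (Free.ChooseBasisIndex ℤ (𝓞 K)) = 2 := by
    rw [← Module.finrank_eq_card_chooseBasisIndex, RingOfIntegers.rank, hK]
  obtain ⟨ι, -⟩ : ∃ ι : Free.ChooseBasisIndex ℤ (𝓞 K) ≃ Fin 2, True :=
    ⟨Fintype.equivFinOfCardEq hcard, trivial⟩
  obtain ⟨e, -⟩ : ∃ e : Fin 2 ≃ (K →ₐ[ℚ] ℂ), True :=
    ⟨(Fintype.equivFinOfCardEq ((AlgHom.card ℚ K ℂ).trans hK)).symm, trivial⟩
  obtain ⟨ω, hω⟩ : ∃ ω, ω = (RingOfIntegers.basis K).reindex ι := ⟨_, rfl⟩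
  have hd : (discr K : ℂ) =
      (e 0 (ω 0 : K) * e 1 (ω 1 : K) - e 1 (ω 0 : K) * e 0 (ω 1 : K)) ^ 2 := by
    have h := Algebra.discr_eq_det_embeddingsMatrixReindex_pow_two ℚ ℂ
      ((integralBasis K) ∘ ι.symm) e
    rw [Algebra.discr_reindex, ← coe_discr, map_intCast, Matrix.det_fin_two] at h
    rw [h]
    simp [Algebra.embeddingsMatrixReindex, Algebra.embeddingsMatrix, hω]
  have hnorm : ∀ z : K, ((Algebra.norm ℚ z : ℚ) : ℂ) = e 0 z * e 1 z := fun z => by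
    have h := Algebra.norm_eq_prod_embeddings ℚ ℂ z
    rw [← Equiv.prod_comp e, Fin.prod_univ_two, eq_ratCast] at h
    exact h
  obtain ⟨a, ha⟩ : ∃ a, a = Algebra.norm ℤ (ω 0) := ⟨_, rfl⟩
  obtain ⟨c, hc⟩ : ∃ c, c = Algebra.norm ℤ (ω 1) := ⟨_, rfl⟩
  obtain ⟨b, hb⟩ : ∃ b, b = Algebra.norm ℤ (ω 0 + ω 1) - a - c := ⟨_, rfl⟩
  have ha' : (a : ℂ) = e 0 (ω 0 : K) * e 1 (ω 0 : K) := by
    rw [← hnorm, ha, ← Rat.cast_intCast, Algebra.coe_norm_int]
  have hc' : (c : ℂ) = e 0 (ω 1 : K) * e 1 (ω 1 : K) := by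
    rw [← hnorm, hc, ← Rat.cast_intCast, Algebra.coe_norm_int]
  have hb' : (b : ℂ) = e 0 (ω 0 : K) * e 1 (ω 1 : K) + e 1 (ω 0 : K) * e 0 (ω 1 : K) := by
    have hs : ((Algebra.norm ℤ (ω 0 + ω 1) : ℤ) : ℂ) =
        (e 0 (ω 0 : K) + e 0 (ω 1 : K)) * (e 1 (ω 0 : K) + e 1 (ω 1 : K)) := by
      rw [← Rat.cast_intCast, Algebra.coe_norm_int, hnorm,
        show ((ω 0 + ω 1 : 𝓞 K) : K) = (ω 0 : K) + (ω 1 : K) from rfl, map_add, map_add]
    rw [hb]
    push_cast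
    rw [hs, ha', hc']
    ring
  refine ⟨ω, e, a, b, c, Int.cast_injective (α := ℂ) ?_, hd,
    fun x y => Rat.cast_injective (α := ℂ) ?_⟩
  · push_cast
    rw [hd, ha', hb', hc']
    ring
  · rw [hnorm]
    push_cast
    rw [ha', hb', hc']
    simp only [map_add, map_mul, map_ratCast]
    ring

theorem exists_far (hK : finrank ℚ K = 2) (hd : 0 < discr K) :
    ∃ z : K, ∀ g : 𝓞 K, Real.sqrt (discr K) / 2 ^ 29 ≤ |((Algebra.norm ℚ (z - g) : ℚ) : ℝ)| := by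
  obtain ⟨ω, σ, a, b, c, hdisc, hdet, hnorm⟩ := exists_form K hK
  have hns : ¬ IsSquare (b ^ 2 - 4 * a * c) := by
    rintro ⟨k, hk⟩
    have key : ∀ x y : ℚ, (a : ℚ) * x ^ 2 + b * x * y + c * y ^ 2 = 0 → x = 0 ∧ y = 0 := by
      intro x y h
      have h0 := Algebra.norm_eq_zero_iff.1 ((hnorm x y).trans h)
      have hσ : ∀ i, (x : ℂ) * σ i (ω 0 : K) + (y : ℂ) * σ i (ω 1 : K) = 0 := fun i => by
        simpa [map_add, map_mul, map_ratCast] using congrArg (σ i) h0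
      obtain ⟨D, hD⟩ : ∃ D : ℂ,
          D = σ 0 (ω 0 : K) * σ 1 (ω 1 : K) - σ 1 (ω 0 : K) * σ 0 (ω 1 : K) := ⟨_, rfl⟩
      have hD0 : D ≠ 0 := fun e => hd.ne' (by
        rw [← hD, e, zero_pow two_ne_zero, Int.cast_eq_zero] at hdet
        exact hdet)
      have hx : (x : ℂ) * D = 0 := by
        rw [hD]
        linear_combination σ 1 (ω 1 : K) * hσ 0 - σ 0 (ω 1 : K) * hσ 1
      have hy : (y : ℂ) * D = 0 := by
        rw [hD]
        linear_combination σ 0 (ω 0 : K) * hσ 1 - σ 1 (ω 0 : K) * hσ 0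
      exact ⟨Rat.cast_eq_zero.1 ((mul_eq_zero.1 hx).resolve_right hD0),
        Rat.cast_eq_zero.1 ((mul_eq_zero.1 hy).resolve_right hD0)⟩
    have hk' : (b : ℚ) ^ 2 - 4 * a * c = k * k := by exact_mod_cast hk
    rcases eq_or_ne a 0 with ha | ha
    · have := key 1 0 (by rw [ha]; push_cast; ring)
      exact one_ne_zero this.1
    · have := key (k - b) (2 * a) (by linear_combination -(a : ℚ) * hk')
      exact ha (by simpa using this.2)
  obtain ⟨x, y, hxy⟩ := IndefForm.exists_inhomogeneous ⟨a, b, c, hdisc ▸ hd, hns⟩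
  refine ⟨(x : K) * (ω 0 : K) + (y : K) * (ω 1 : K), fun g => ?_⟩
  have hg : (g : K) = ((ω.repr g 0 : ℚ) : K) * (ω 0 : K) + ((ω.repr g 1 : ℚ) : K) * (ω 1 : K) := by
    conv_lhs => rw [← ω.sum_repr g]
    simp [Fin.sum_univ_two]
  rw [show (x : K) * (ω 0 : K) + (y : K) * (ω 1 : K) - (g : K) =
      ((x - ω.repr g 0 : ℚ) : K) * (ω 0 : K) + ((y - ω.repr g 1 : ℚ) : K) * (ω 1 : K) by
    rw [hg]; push_cast; ring, hnorm]
  have h := hxy (ω.repr g 0, ω.repr g 1)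
  simp only [IndefForm.root, IndefForm.disc, IndefForm.value, hdisc] at h
  push_cast
  exact h

theorem discr_lt_of_normEuclidean (hK : finrank ℚ K = 2) (hE : IsNormEuclideanField K) :
    discr K < 2 ^ 58 := by
  by_contra! hle
  obtain ⟨z, hz⟩ := exists_far K hK ((by norm_num : (0 : ℤ) < 2 ^ 58).trans_le hle)
  obtain ⟨g, hg⟩ := hE z
  have h1 : |((Algebra.norm ℚ (z - g) : ℚ) : ℝ)| < 1 := by exact_mod_cast hg
  have h2 : (2 : ℝ) ^ 29 ≤ Real.sqrt (discr K) := by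
    refine Real.le_sqrt_of_sq_le ?_
    rw [← pow_mul]
    exact_mod_cast hle
  have h3 := (one_le_div₀ (by positivity)).2 h2
  linarith [hz g]

theorem le_discr_of_sqrt (hK : finrank ℚ K = 2) {d : ℕ} (hd : Squarefree d) (hd1 : 1 < d)
    (hs : ∃ s : K, s ^ 2 = (d : K)) : (d : ℤ) ≤ discr K := by
  obtain ⟨ω, σ, a, b, c, -, hdisc, -⟩ := exists_form K hK
  obtain ⟨s, hs⟩ := hs
  obtain ⟨r, rfl⟩ : ∃ r : 𝓞 K, (r : K) = s := ⟨⟨s, ⟨Polynomial.X ^ 2 - Polynomial.C (d : ℤ),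
    by monicity!, by rw [← Polynomial.aeval_def]; simp [hs]⟩⟩, rfl⟩
  have hr : ∀ g : 𝓞 K, ∀ i, σ i (g : K) =
      (ω.repr g 0 : ℂ) * σ i (ω 0 : K) + (ω.repr g 1 : ℂ) * σ i (ω 1 : K) := fun g i => by
    conv_lhs => rw [← ω.sum_repr g]
    simp [Fin.sum_univ_two]
  obtain ⟨m, hm⟩ : ∃ m : ℤ, m = ω.repr 1 0 * ω.repr r 1 - ω.repr 1 1 * ω.repr r 0 := ⟨_, rfl⟩
  have h1 : ∀ i, (1 : ℂ) =
      (ω.repr 1 0 : ℂ) * σ i (ω 0 : K) + (ω.repr 1 1 : ℂ) * σ i (ω 1 : K) := fun i => by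
    rw [← hr, show ((1 : 𝓞 K) : K) = 1 from rfl, map_one]
  have hdiff : (σ 1 (r : K) - σ 0 (r : K)) ^ 2 = (m : ℂ) ^ 2 * (discr K : ℂ) := by
    have e : σ 1 (r : K) - σ 0 (r : K) =
        (m : ℂ) * (σ 0 (ω 0 : K) * σ 1 (ω 1 : K) - σ 1 (ω 0 : K) * σ 0 (ω 1 : K)) := by
      rw [hm]
      push_cast
      linear_combination σ 1 (r : K) * h1 0 - σ 0 (r : K) * h1 1 +
        ((ω.repr 1 0 : ℂ) * σ 0 (ω 0 : K) + (ω.repr 1 1 : ℂ) * σ 0 (ω 1 : K)) * hr r 1 -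
        ((ω.repr 1 0 : ℂ) * σ 1 (ω 0 : K) + (ω.repr 1 1 : ℂ) * σ 1 (ω 1 : K)) * hr r 0
    rw [e, mul_pow, hdisc]
  have hsq : ∀ i, σ i (r : K) ^ 2 = (d : ℂ) := fun i => by rw [← map_pow, hs, map_natCast]
  rcases sq_eq_sq_iff_eq_or_eq_neg.1 ((hsq 1).trans (hsq 0).symm) with h | h
  · rw [h, sub_self, zero_pow two_ne_zero, eq_comm, mul_eq_zero, pow_eq_zero_iff two_ne_zero,
      Int.cast_eq_zero, Int.cast_eq_zero] at hdiff
    have hm0 := hdiff.resolve_right (discr_ne_zero K)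
    exfalso
    rw [hm, sub_eq_zero] at hm0
    have hrat : ∀ j : Fin 2, ((ω.repr 1 j : ℤ) : K) * (r : K) = ((ω.repr r j : ℤ) : K) := by
      have h1' : (1 : K) =
          (ω.repr 1 0 : K) * (ω 0 : K) + (ω.repr 1 1 : K) * (ω 1 : K) := by
        have := congrArg (fun g : 𝓞 K => (g : K)) (ω.sum_repr 1)
        simpa [Fin.sum_univ_two] using this.symm
      have hr' : (r : K) = (ω.repr r 0 : K) * (ω 0 : K) + (ω.repr r 1 : K) * (ω 1 : K) := by
        conv_lhs => rw [← ω.sum_repr r]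
        simp [Fin.sum_univ_two]
      have hm' : (ω.repr 1 0 : K) * (ω.repr r 1 : K) = (ω.repr 1 1 : K) * (ω.repr r 0 : K) := by
        exact_mod_cast hm0
      refine Fin.forall_fin_two.2 ⟨?_, ?_⟩
      · linear_combination (ω.repr 1 0 : K) * hr' - (ω.repr r 0 : K) * h1' + (ω 1 : K) * hm'
      · linear_combination (ω.repr 1 1 : K) * hr' - (ω.repr r 1 : K) * h1' - (ω 0 : K) * hm'
    obtain ⟨j, hj⟩ : ∃ j, ω.repr 1 j ≠ 0 := by
      by_contra! hno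
      exact one_ne_zero (ω.ext_elem (x := 1) (y := 0) fun j => by rw [hno j, map_zero]; rfl)
    have h2 := congrArg (fun z : K => z ^ 2) (hrat j)
    simp only [mul_pow, hs] at h2
    have h3 : ω.repr 1 j ^ 2 * (d : ℤ) = ω.repr r j ^ 2 := by exact_mod_cast h2
    have hsqd : IsSquare (d : ℤ) := by
      refine Rat.isSquare_intCast_iff.1 ⟨(ω.repr r j : ℚ) / ω.repr 1 j, ?_⟩
      have hj' : (ω.repr 1 j : ℚ) ≠ 0 := Int.cast_ne_zero.2 hj
      have h4 : (ω.repr 1 j : ℚ) ^ 2 * ((d : ℤ) : ℚ) = (ω.repr r j : ℚ) ^ 2 := by exact_mod_cast h3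
      rw [div_mul_div_comm, eq_div_iff (mul_ne_zero hj' hj')]
      linear_combination h4
    rw [Int.isSquare_natCast_iff] at hsqd
    obtain ⟨k, rfl⟩ := hsqd
    have := Nat.isUnit_iff.1 (hd k dvd_rfl)
    simp [this] at hd1
  · have h4 : (4 * d : ℤ) = m ^ 2 * discr K := by
      apply Int.cast_injective (α := ℂ)
      push_cast
      rw [← hdiff, h, ← hsq 0]
      ring
    have hΔ : 0 < discr K := by
      by_contra! hneg
      nlinarith [mul_nonpos_of_nonneg_of_nonpos (sq_nonneg m) hneg]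
    suffices hm2 : m ^ 2 ≤ 4 by nlinarith
    have hdvd : m.natAbs ^ 2 ∣ 4 * d := by
      have h5 := congrArg Int.natAbs h4
      rw [Int.natAbs_mul, Int.natAbs_mul, Int.natAbs_pow] at h5
      exact ⟨_, by simpa using h5⟩
    have h2 : m.natAbs ≤ 2 := by
      by_contra! hlt
      rcases Nat.four_dvd_or_exists_odd_prime_and_dvd_of_two_lt hlt with h4m | ⟨q, hq, hqm, hodd⟩
      · have h16 : 4 * 4 ∣ 4 * d := (Nat.mul_dvd_mul h4m h4m).trans (sq m.natAbs ▸ hdvd)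
        exact absurd (Nat.isUnit_iff.1 (hd 2 ((Nat.mul_dvd_mul_iff_left (by norm_num)).1 h16)))
          (by norm_num)
      · have hqq : q * q ∣ 4 * d := (Nat.mul_dvd_mul hqm hqm).trans (sq m.natAbs ▸ hdvd)
        have hcop : Nat.Coprime (q * q) 4 := by
          have : Nat.Coprime q (2 ^ 2) := (Nat.coprime_two_right.2 hodd).pow_right 2
          exact Nat.Coprime.mul_left this this
        exact hq.not_isUnit (hd q (hcop.dvd_of_dvd_mul_left hqq))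
    rw [← Int.natAbs_sq]
    exact_mod_cast Nat.pow_le_pow_left h2 2

theorem sqrt_lt_of_normEuclidean (hK : finrank ℚ K = 2) {d : ℕ} (hd : Squarefree d) (hd1 : 1 < d)
    (hs : ∃ s : K, s ^ 2 = (d : K)) (hE : IsNormEuclideanField K) : d < 2 ^ 58 := by
  have := (le_discr_of_sqrt K hK hd hd1 hs).trans_lt (discr_lt_of_normEuclidean K hK hE)
  exact_mod_cast this

end FA.DavenportEuclidean
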